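import Mathlib

/-!
# Coset systems and their transfers (helper761, row S41, block HK)

Ambient group `𝒢`, groups `Γ`, `Γ'` with homomorphisms `ι : Γ →* 𝒢` (injective), `ι' : Γ' →* 𝒢`.
A family `ρ : I → 𝒢` is a *coset system* from `Γ` to `Γ'` if

* (S1) for all `i`, `g'` there are `j`, `g` with `ρ i * ι' g' = ι g * ρ j`;
* (S2) `ρ i = ι g * ρ j` implies `i = j`.

Then `j =: act i g'` and `g =: coc i g'` are unique, `coc` is a cocycle, and
`transfer φ g' = ∑ i, φ (coc i g')` is an additive homomorphism `Γ' → A` for every additive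
homomorphism `φ : Γ → A`.  Restriction along a homomorphism realized by conjugation, the transfer
(corestriction) to an overgroup and Hecke operators are all of this form; relations between them
reduce to the comparison theorem `transfer_eq_of_le` and the composition theorem `transfer_comp`.
-/

set_option autoImplicit false

namespace Fermat.Agent.S41.H761

section CosetSystem

variable {𝒢 Γ Γ' Γ'' : Type*} [Group 𝒢] [Group Γ] [Group Γ'] [Group Γ'']
variable {I J : Type*}

/-- A coset system from `Γ` to `Γ'` inside `𝒢`. -/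
structure IsCosetSystem (ι : Γ →* 𝒢) (ι' : Γ' →* 𝒢) (ρ : I → 𝒢) : Prop where
  inj : Function.Injective ι
  exists_mul : ∀ (i : I) (g' : Γ'), ∃ (j : I) (g : Γ), ρ i * ι' g' = ι g * ρ j
  eq_of_mul : ∀ (i j : I) (g : Γ), ρ i = ι g * ρ j → i = j

namespace IsCosetSystem

variable {ι : Γ →* 𝒢} {ι' : Γ' →* 𝒢} {ι'' : Γ'' →* 𝒢} {ρ : I → 𝒢} {ρ' : J → 𝒢}

section Basic

variable (h : IsCosetSystem ι ι' ρ)
include h

/-- The right action of `Γ'` on the index set. -/
noncomputable def act (i : I) (g' : Γ') : I := (h.exists_mul i g').choose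

/-- The cocycle. -/
noncomputable def coc (i : I) (g' : Γ') : Γ := (h.exists_mul i g').choose_spec.choose

theorem spec (i : I) (g' : Γ') : ρ i * ι' g' = ι (h.coc i g') * ρ (h.act i g') :=
  (h.exists_mul i g').choose_spec.choose_spec

theorem unique {i j : I} {g' : Γ'} {g : Γ} (e : ρ i * ι' g' = ι g * ρ j) :
    h.act i g' = j ∧ h.coc i g' = g := by
  have e2 := h.spec i g'
  rw [e] at e2
  have e3 : ρ (h.act i g') = ι ((h.coc i g')⁻¹ * g) * ρ j := by
    rw [map_mul, map_inv, mul_assoc, e2, inv_mul_cancel_left]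
  have hj := h.eq_of_mul _ _ _ e3
  refine ⟨hj, ?_⟩
  rw [hj] at e2
  exact h.inj (mul_right_cancel e2).symm

theorem act_eq {i j : I} {g' : Γ'} {g : Γ} (e : ρ i * ι' g' = ι g * ρ j) : h.act i g' = j :=
  (h.unique e).1

theorem coc_eq {i j : I} {g' : Γ'} {g : Γ} (e : ρ i * ι' g' = ι g * ρ j) : h.coc i g' = g :=
  (h.unique e).2

theorem act_one (i : I) : h.act i 1 = i := h.act_eq (g := 1) (by simp)

theorem coc_one (i : I) : h.coc i 1 = 1 := h.coc_eq (j := i) (by simp)

theorem mul_spec (i : I) (g' k' : Γ') :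
    ρ i * ι' (g' * k') = ι (h.coc i g' * h.coc (h.act i g') k') * ρ (h.act (h.act i g') k') := by
  rw [map_mul, ← mul_assoc, h.spec i g', mul_assoc, h.spec (h.act i g') k', map_mul, mul_assoc]

theorem act_mul (i : I) (g' k' : Γ') : h.act i (g' * k') = h.act (h.act i g') k' :=
  h.act_eq (h.mul_spec i g' k')

theorem coc_mul (i : I) (g' k' : Γ') :
    h.coc i (g' * k') = h.coc i g' * h.coc (h.act i g') k' :=
  h.coc_eq (h.mul_spec i g' k')

/-- The action of `g'` as a permutation of the index set. -/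
noncomputable def actEquiv (g' : Γ') : I ≃ I where
  toFun i := h.act i g'
  invFun i := h.act i g'⁻¹
  left_inv i := by
    show h.act (h.act i g') g'⁻¹ = i
    rw [← h.act_mul, mul_inv_cancel, h.act_one]
  right_inv i := by
    show h.act (h.act i g'⁻¹) g' = i
    rw [← h.act_mul, inv_mul_cancel, h.act_one]

@[simp] theorem actEquiv_apply (g' : Γ') (i : I) : h.actEquiv g' i = h.act i g' := rfl

/-- Conjugation formula for the cocycle. -/
theorem map_coc (i : I) (g' : Γ') :
    ι (h.coc i g') = ρ i * ι' g' * (ρ (h.act i g'))⁻¹ := by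
  rw [h.spec i g', mul_inv_cancel_right]

end Basic

section Transfer

variable {A : Type*} [AddCommGroup A] [Fintype I]

/-- The transfer of a coset system. -/
noncomputable def transfer (h : IsCosetSystem ι ι' ρ) (φ : Additive Γ →+ A) :
    Additive Γ' →+ A where
  toFun g' := ∑ i, φ (Additive.ofMul (h.coc i (Additive.toMul g')))
  map_zero' := by
    simp only [toMul_zero, h.coc_one, ofMul_one, map_zero, Finset.sum_const_zero]
  map_add' a b := by
    simp only [toMul_add, h.coc_mul, ofMul_mul, map_add, Finset.sum_add_distrib]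
    congr 1
    exact Equiv.sum_comp (h.actEquiv (Additive.toMul a))
      (fun j => φ (Additive.ofMul (h.coc j (Additive.toMul b))))

theorem transfer_apply (h : IsCosetSystem ι ι' ρ) (φ : Additive Γ →+ A) (g' : Γ') :
    h.transfer φ (Additive.ofMul g') = ∑ i, φ (Additive.ofMul (h.coc i g')) := rfl

theorem transfer_add (h : IsCosetSystem ι ι' ρ) (φ ψ : Additive Γ →+ A) :
    h.transfer (φ + ψ) = h.transfer φ + h.transfer ψ := by
  refine AddMonoidHom.ext fun g' => ?_
  simp only [transfer, AddMonoidHom.coe_mk, ZeroHom.coe_mk, AddMonoidHom.add_apply,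
    Finset.sum_add_distrib]

theorem transfer_comp_left {B : Type*} [AddCommGroup B] (h : IsCosetSystem ι ι' ρ) (π : A →+ B)
    (φ : Additive Γ →+ A) : h.transfer (π.comp φ) = π.comp (h.transfer φ) := by
  refine AddMonoidHom.ext fun g' => ?_
  simp only [transfer, AddMonoidHom.coe_mk, ZeroHom.coe_mk, AddMonoidHom.coe_comp,
    Function.comp_apply, map_sum]

omit [Fintype I] in
/-- If every coset of a system is a coset of a finite family, the system is finite. -/
theorem finite_of_le [Finite J] (h : IsCosetSystem ι ι' ρ)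
    (hle : ∀ i, ∃ (j : J) (g : Γ), ρ i = ι g * ρ' j) : Finite I := by
  choose e β hβ using hle
  refine Finite.of_injective e fun i i' hii => ?_
  apply h.eq_of_mul i i' (β i * (β i')⁻¹)
  rw [hβ i, hii, map_mul, map_inv, mul_assoc, hβ i', inv_mul_cancel_left]

/-- **Comparison.**  Two coset systems such that every coset of the first is a coset of the
second, and the action of the second is transitive, have the same transfer. -/
theorem transfer_eq_of_le [Fintype J] [Nonempty I] (h : IsCosetSystem ι ι' ρ)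
    (h' : IsCosetSystem ι ι' ρ') (hle : ∀ i, ∃ (j : J) (g : Γ), ρ i = ι g * ρ' j)
    (htr : ∀ j j' : J, ∃ g' : Γ', h'.act j g' = j') (φ : Additive Γ →+ A) :
    h.transfer φ = h'.transfer φ := by
  classical
  choose e β hβ using hle
  -- equivariance
  have key : ∀ (i : I) (g' : Γ'), h'.act (e i) g' = e (h.act i g') ∧
      h'.coc (e i) g' = (β i)⁻¹ * h.coc i g' * β (h.act i g') := by
    intro i g'
    apply h'.unique
    have h1 : ρ' (e i) = ι (β i)⁻¹ * ρ i := by
      rw [hβ i, map_inv, inv_mul_cancel_left]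
    rw [h1, mul_assoc, h.spec i g', hβ (h.act i g')]
    simp only [map_mul, map_inv, mul_assoc]
  have einj : Function.Injective e := by
    intro i i' hii
    apply h.eq_of_mul i i' (β i * (β i')⁻¹)
    rw [hβ i, hii, map_mul, map_inv, mul_assoc, hβ i', inv_mul_cancel_left]
  have esurj : Function.Surjective e := by
    intro j
    obtain ⟨i₀⟩ := ‹Nonempty I›
    obtain ⟨g', hg'⟩ := htr (e i₀) j
    exact ⟨h.act i₀ g', by rw [← (key i₀ g').1, hg']⟩
  let E : I ≃ J := Equiv.ofBijective e ⟨einj, esurj⟩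
  refine AddMonoidHom.ext fun g' => ?_
  obtain ⟨g, rfl⟩ : ∃ g : Γ', Additive.ofMul g = g' := ⟨Additive.toMul g', rfl⟩
  rw [transfer_apply, transfer_apply, ← Equiv.sum_comp E]
  have hE : ∀ i, E i = e i := fun _ => rfl
  simp only [hE, (key _ g).2, ofMul_mul, ofMul_inv, map_add, map_neg, Finset.sum_add_distrib,
    Finset.sum_neg_distrib]
  have hperm : ∑ i, φ (Additive.ofMul (β (h.act i g))) = ∑ i, φ (Additive.ofMul (β i)) :=
    Equiv.sum_comp (h.actEquiv g) (fun i => φ (Additive.ofMul (β i)))
  rw [hperm]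
  abel

omit [Fintype I] in
/-- In the situation of the comparison theorem the index sets have the same cardinality. -/
theorem card_eq_of_le [Nonempty I] (h : IsCosetSystem ι ι' ρ)
    (h' : IsCosetSystem ι ι' ρ') (hle : ∀ i, ∃ (j : J) (g : Γ), ρ i = ι g * ρ' j)
    (htr : ∀ j j' : J, ∃ g' : Γ', h'.act j g' = j') : Nat.card I = Nat.card J := by
  choose e β hβ using hle
  have key : ∀ (i : I) (g' : Γ'), h'.act (e i) g' = e (h.act i g') := by
    intro i g'
    apply h'.act_eq (g := (β i)⁻¹ * h.coc i g' * β (h.act i g'))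
    have h1 : ρ' (e i) = ι (β i)⁻¹ * ρ i := by
      rw [hβ i, map_inv, inv_mul_cancel_left]
    rw [h1, mul_assoc, h.spec i g', hβ (h.act i g')]
    simp only [map_mul, map_inv, mul_assoc]
  have einj : Function.Injective e := by
    intro i i' hii
    apply h.eq_of_mul i i' (β i * (β i')⁻¹)
    rw [hβ i, hii, map_mul, map_inv, mul_assoc, hβ i', inv_mul_cancel_left]
  have esurj : Function.Surjective e := by
    intro j
    obtain ⟨i₀⟩ := ‹Nonempty I›
    obtain ⟨g', hg'⟩ := htr (e i₀) j
    exact ⟨h.act i₀ g', by rw [← key i₀ g', hg']⟩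
  exact Nat.card_eq_of_bijective e ⟨einj, esurj⟩

omit [Fintype I] in
/-- The product of two coset systems, provided its cosets are distinct. -/
theorem prod (h : IsCosetSystem ι ι' ρ) (h' : IsCosetSystem ι' ι'' ρ')
    (hS2 : ∀ (i i' : I) (j j' : J) (g : Γ), ρ i * ρ' j = ι g * (ρ i' * ρ' j') → i = i' ∧ j = j') :
    IsCosetSystem ι ι'' (fun x : I × J => ρ x.1 * ρ' x.2) where
  inj := h.inj
  exists_mul := by
    rintro ⟨i, j⟩ g''
    refine ⟨(h.act i (h'.coc j g''), h'.act j g''), h.coc i (h'.coc j g''), ?_⟩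
    simp only
    rw [mul_assoc, h'.spec j g'', ← mul_assoc, h.spec i (h'.coc j g''), mul_assoc]
  eq_of_mul := by
    rintro ⟨i, j⟩ ⟨i', j'⟩ g e
    obtain ⟨rfl, rfl⟩ := hS2 i i' j j' g e
    rfl

/-- **Composition.** -/
theorem transfer_comp [Fintype J] (h : IsCosetSystem ι ι' ρ) (h' : IsCosetSystem ι' ι'' ρ')
    (hprod : IsCosetSystem ι ι'' (fun x : I × J => ρ x.1 * ρ' x.2)) (φ : Additive Γ →+ A) :
    h'.transfer (h.transfer φ) = hprod.transfer φ := by
  refine AddMonoidHom.ext fun g'' => ?_
  obtain ⟨g, rfl⟩ : ∃ g : Γ'', Additive.ofMul g = g'' := ⟨Additive.toMul g'', rfl⟩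
  rw [transfer_apply, transfer_apply]
  simp only [transfer_apply]
  rw [Fintype.sum_prod_type_right]
  refine Finset.sum_congr rfl fun j _ => Finset.sum_congr rfl fun i _ => ?_
  congr 2
  symm
  apply hprod.coc_eq (j := (h.act i (h'.coc j g), h'.act j g))
  simp only
  rw [mul_assoc, h'.spec j g, ← mul_assoc, h.spec i (h'.coc j g), mul_assoc]

end Transfer

/-- A homomorphism `c : Γ' →* Γ` realized by conjugation by `d` is a coset system with one
representative; its transfer is the pull-back along `c`. -/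
theorem single (hι : Function.Injective ι) (c : Γ' →* Γ) (d : 𝒢)
    (hd : ∀ g' : Γ', d * ι' g' = ι (c g') * d) :
    IsCosetSystem ι ι' (fun _ : Unit => d) where
  inj := hι
  exists_mul := fun _ g' => ⟨(), c g', hd g'⟩
  eq_of_mul := fun _ _ _ _ => rfl

theorem single_coc (hι : Function.Injective ι) (c : Γ' →* Γ) (d : 𝒢)
    (hd : ∀ g' : Γ', d * ι' g' = ι (c g') * d) (i : Unit) (g' : Γ') :
    (single hι c d hd).coc i g' = c g' :=
  (single hι c d hd).coc_eq (j := ()) (hd g')

theorem single_transfer {A : Type*} [AddCommGroup A] (hι : Function.Injective ι) (c : Γ' →* Γ)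
    (d : 𝒢) (hd : ∀ g' : Γ', d * ι' g' = ι (c g') * d) (φ : Additive Γ →+ A) :
    (single hι c d hd).transfer φ = φ.comp (MonoidHom.toAdditive c) := by
  refine AddMonoidHom.ext fun g' => ?_
  obtain ⟨g, rfl⟩ : ∃ g : Γ', Additive.ofMul g = g' := ⟨Additive.toMul g', rfl⟩
  rw [transfer_apply]
  simp only [Finset.univ_unique, Finset.sum_singleton]
  show φ (Additive.ofMul ((single hι c d hd).coc default g)) = φ (Additive.ofMul (c g))
  rw [single_coc hι c d hd]

end IsCosetSystem

end CosetSystem

/-! ## Mathlib's transfer as the transfer of a coset system -/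

section MathlibTransfer

open Subgroup Subgroup.leftTransversals MulAction

variable {G : Type*} [Group G]

theorem out_inv_mul_mul_out_mem (H : Subgroup G) (g : G) (q : G ⧸ H) :
    (q.out)⁻¹ * g * (g⁻¹ • q).out ∈ H := by
  rw [mul_assoc, ← QuotientGroup.eq]
  have h1 : ((g * (g⁻¹ • q).out : G) : G ⧸ H) = g • ((((g⁻¹ • q).out : G)) : G ⧸ H) := rfl
  rw [h1, QuotientGroup.out_eq', QuotientGroup.out_eq', smul_inv_smul]

/-- Mathlib's transfer, computed with the transversal `Quotient.out`. -/
theorem transfer_eq_prod_out {H : Subgroup G} {A : Type*} [CommGroup A] (ϕ : H →* A)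
    [H.FiniteIndex] (g : G) :
    letI := H.fintypeQuotientOfFiniteIndex
    ϕ.transfer g =
      ∏ q : G ⧸ H, ϕ ⟨(q.out)⁻¹ * g * (g⁻¹ • q).out, out_inv_mul_mul_out_mem H g q⟩ := by
  rw [MonoidHom.transfer_def ϕ
    ⟨Set.range Quotient.out, isComplement_range_left Quotient.out_eq'⟩ g]
  unfold diff
  simp only
  refine Finset.prod_congr rfl fun q _ => ?_
  congr 1
  apply Subtype.ext
  simp only
  rw [smul_apply_eq_smul_apply_inv_smul]
  rw [IsComplement.leftQuotientEquiv_apply (f := Quotient.out) Quotient.out_eq',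
    IsComplement.leftQuotientEquiv_apply (f := Quotient.out) Quotient.out_eq']
  rw [smul_eq_mul, mul_assoc]

variable {𝒢 H' : Type*} [Group 𝒢] [Group H']

/-- The coset system of the transfer along an injective homomorphism `f : H' →* G`:
representatives `ι (q.out)⁻¹`, `q ∈ G ⧸ f.range`. -/
theorem IsCosetSystem.ofTransfer (f : H' →* G) (hf : Function.Injective f) (ι : G →* 𝒢)
    (hι : Function.Injective ι) :
    IsCosetSystem (ι.comp f) ι (fun q : G ⧸ f.range => ι (q.out)⁻¹) where
  inj := hι.comp hf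
  exists_mul := by
    intro q g
    obtain ⟨h, hh⟩ := out_inv_mul_mul_out_mem f.range g q
    refine ⟨g⁻¹ • q, h, ?_⟩
    simp only [MonoidHom.comp_apply, hh, ← map_mul]
    rw [mul_inv_cancel_right]
  eq_of_mul := by
    intro q q' h e
    simp only [MonoidHom.comp_apply, ← map_mul] at e
    have e2 := hι e
    have e3 : (q'.out)⁻¹ * q.out = (f h)⁻¹ := by
      rw [← inv_inj, mul_inv_rev, inv_inv, e2, inv_inv, inv_mul_cancel_right]
    have e4 : ((q'.out : G) : G ⧸ f.range) = ((q.out : G) : G ⧸ f.range) := by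
      rw [QuotientGroup.eq, e3]
      exact inv_mem ⟨h, rfl⟩
    rw [QuotientGroup.out_eq', QuotientGroup.out_eq'] at e4
    exact e4.symm

theorem IsCosetSystem.ofTransfer_act (f : H' →* G) (hf : Function.Injective f) (ι : G →* 𝒢)
    (hι : Function.Injective ι) (q : G ⧸ f.range) (g : G) :
    (IsCosetSystem.ofTransfer f hf ι hι).act q g = g⁻¹ • q ∧
    f ((IsCosetSystem.ofTransfer f hf ι hι).coc q g) = (q.out)⁻¹ * g * (g⁻¹ • q).out := by
  obtain ⟨h, hh⟩ := out_inv_mul_mul_out_mem f.range g q
  have key := (IsCosetSystem.ofTransfer f hf ι hι).unique (i := q) (j := g⁻¹ • q) (g' := g)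
    (g := h) (by
      simp only [MonoidHom.comp_apply, hh, ← map_mul]
      rw [mul_inv_cancel_right])
  exact ⟨key.1, by rw [key.2, hh]⟩

end MathlibTransfer

end Fermat.Agent.S41.H761
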