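import Mathlib
import Fermat.Agent.S41.Spec.HK
import Fermat.Agent.S41.H761.CosetSystem

/-!
# The coset systems of block HK (helper761, row S41)

* `ιN N : Γ₀(N) →* GL(2, ℝ)`;
* `heckeSystem` : the Hecke representatives `heckeRep p x`, `x ∈ ℙ¹(𝔽_p)`, form a coset system
  from `Γ₀(N)` to `Γ₀(N)`, whose transfer is `heckeTransfer` (S29/H642);
* `heckeSystem_transitive` : `Γ₀(N)` acts transitively on `ℙ¹(𝔽_p)` (`p ∤ N`).
-/

set_option autoImplicit false

namespace Fermat.Agent.S41.H761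

open CongruenceSubgroup Matrix.SpecialLinearGroup ModularForm
open Fermat.Agent.S29.H642 Fermat.Agent.S41.Spec
open P2MW.S_ModularForm_heckeT_slash_eq_self_of_mem_Gamma0.ModularForm.HeckeSlashInvariance
open scoped MatrixGroups

/-- The embedding `Γ₀(N) → GL(2, ℝ)`. -/
noncomputable def ιN (N : ℕ) : Gamma0 N →* GL (Fin 2) ℝ := (mapGL ℝ).comp (Gamma0 N).subtype

theorem ιN_injective (N : ℕ) : Function.Injective (ιN N) :=
  mapGL_real_injective.comp Subtype.val_injective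

theorem ιN_apply {N : ℕ} (g : Gamma0 N) : ιN N g = mapGL ℝ (g : SL(2, ℤ)) := rfl

theorem coe_mapGL_apply (g : SL(2, ℤ)) (i j : Fin 2) :
    ((mapGL ℝ g : GL (Fin 2) ℝ) : Matrix (Fin 2) (Fin 2) ℝ) i j = ((g i j : ℤ) : ℝ) := by
  simp

theorem coe_ιN_apply {N : ℕ} (g : Gamma0 N) (i j : Fin 2) :
    ((ιN N g : GL (Fin 2) ℝ) : Matrix (Fin 2) (Fin 2) ℝ) i j = (((g : SL(2, ℤ)) i j : ℤ) : ℝ) :=
  coe_mapGL_apply _ i j

/-- Entries of a product in `GL(2, ℝ)`. -/
theorem coe_mul_apply (X Y : GL (Fin 2) ℝ) (i j : Fin 2) :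
    ((X * Y : GL (Fin 2) ℝ) : Matrix (Fin 2) (Fin 2) ℝ) i j =
      (X : Matrix (Fin 2) (Fin 2) ℝ) i 0 * (Y : Matrix (Fin 2) (Fin 2) ℝ) 0 j +
      (X : Matrix (Fin 2) (Fin 2) ℝ) i 1 * (Y : Matrix (Fin 2) (Fin 2) ℝ) 1 j := by
  rw [Matrix.GeneralLinearGroup.coe_mul, Matrix.mul_apply, Fin.sum_univ_two]

/-- Equality in `GL(2, ℝ)` from equality of the four entries. -/
theorem gl_ext {X Y : GL (Fin 2) ℝ}
    (h00 : (X : Matrix (Fin 2) (Fin 2) ℝ) 0 0 = (Y : Matrix (Fin 2) (Fin 2) ℝ) 0 0)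
    (h01 : (X : Matrix (Fin 2) (Fin 2) ℝ) 0 1 = (Y : Matrix (Fin 2) (Fin 2) ℝ) 0 1)
    (h10 : (X : Matrix (Fin 2) (Fin 2) ℝ) 1 0 = (Y : Matrix (Fin 2) (Fin 2) ℝ) 1 0)
    (h11 : (X : Matrix (Fin 2) (Fin 2) ℝ) 1 1 = (Y : Matrix (Fin 2) (Fin 2) ℝ) 1 1) : X = Y := by
  apply Units.ext
  ext i j
  fin_cases i <;> fin_cases j
  · exact h00
  · exact h01
  · exact h10
  · exact h11

section Hecke

variable {p : ℕ} [Fact p.Prime] {N : ℕ}

theorem coe_heckeRep_infty :
    ((heckeRep p OnePoint.infty : GL (Fin 2) ℝ) : Matrix (Fin 2) (Fin 2) ℝ) =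
      !![(p : ℝ), 0; 0, 1] := by
  rw [heckeRep_infty, val_heckeDiagMatrix (Fact.out : p.Prime).ne_zero]

theorem coe_heckeRep_coe (j : ZMod p) :
    ((heckeRep p (j : OnePoint (ZMod p)) : GL (Fin 2) ℝ) : Matrix (Fin 2) (Fin 2) ℝ) =
      !![(1 : ℝ), (j.val : ℝ); 0, (p : ℝ)] := by
  rw [heckeRep_coe, val_heckeMatrix (Fact.out : p.Prime).ne_zero]

/-- The lower left entry of a Hecke representative vanishes, the diagonal is `(1, p)` or `(p, 1)`. -/
theorem heckeRep_entries (x : OnePoint (ZMod p)) :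
    ((heckeRep p x : GL (Fin 2) ℝ) : Matrix (Fin 2) (Fin 2) ℝ) 1 0 = 0 := by
  induction x using OnePoint.rec with
  | infty => rw [coe_heckeRep_infty]; simp
  | coe j => rw [coe_heckeRep_coe]; simp

/-- Distinct Hecke representatives lie in distinct left cosets of `SL(2, ℤ)`. -/
theorem heckeRep_eq_of_mul {x y : OnePoint (ZMod p)} {g : SL(2, ℤ)}
    (e : heckeRep p x = mapGL ℝ g * heckeRep p y) : x = y := by
  have hp : (p : ℝ) ≠ 0 := by exact_mod_cast (Fact.out : p.Prime).ne_zero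
  have hp2 : (2 : ℝ) ≤ p := by exact_mod_cast (Fact.out : p.Prime).two_le
  have e00 := congrArg (fun M : GL (Fin 2) ℝ => (M : Matrix (Fin 2) (Fin 2) ℝ) 0 0) e
  have e01 := congrArg (fun M : GL (Fin 2) ℝ => (M : Matrix (Fin 2) (Fin 2) ℝ) 0 1) e
  have e10 := congrArg (fun M : GL (Fin 2) ℝ => (M : Matrix (Fin 2) (Fin 2) ℝ) 1 0) e
  have e11 := congrArg (fun M : GL (Fin 2) ℝ => (M : Matrix (Fin 2) (Fin 2) ℝ) 1 1) e
  simp only [coe_mul_apply, coe_mapGL_apply] at e00 e01 e10 e11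
  induction x using OnePoint.rec with
  | infty =>
    induction y using OnePoint.rec with
    | infty => rfl
    | coe k =>
      exfalso
      simp only [coe_heckeRep_infty, coe_heckeRep_coe, Matrix.of_apply, Matrix.cons_val',
        Matrix.cons_val_zero, Matrix.cons_val_one, Matrix.cons_val_fin_one, mul_one, mul_zero,
        add_zero] at e00 e01 e10 e11
      -- g10 = 0, g11 * p = 1
      have h10 : ((g 1 0 : ℤ) : ℝ) = 0 := e10.symm
      rw [h10, zero_mul, zero_add] at e11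
      have h11 : (g 1 1 : ℤ) * (p : ℤ) = 1 := by exact_mod_cast e11.symm
      have := Int.isUnit_iff.mp (IsUnit.of_mul_eq_one _ (by rw [mul_comm]; exact h11) : IsUnit (p : ℤ))
      have hp2' : (2 : ℤ) ≤ p := by exact_mod_cast (Fact.out : p.Prime).two_le
      omega
  | coe j =>
    induction y using OnePoint.rec with
    | infty =>
      exfalso
      simp only [coe_heckeRep_infty, coe_heckeRep_coe, Matrix.of_apply, Matrix.cons_val',
        Matrix.cons_val_zero, Matrix.cons_val_one, Matrix.cons_val_fin_one, mul_one, mul_zero,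
        add_zero] at e00 e01 e10 e11
      have h00 : (g 0 0 : ℤ) * (p : ℤ) = 1 := by exact_mod_cast e00.symm
      have := Int.isUnit_iff.mp (IsUnit.of_mul_eq_one _ (by rw [mul_comm]; exact h00) : IsUnit (p : ℤ))
      have hp2' : (2 : ℤ) ≤ p := by exact_mod_cast (Fact.out : p.Prime).two_le
      omega
    | coe k =>
      simp only [coe_heckeRep_coe, Matrix.of_apply, Matrix.cons_val',
        Matrix.cons_val_zero, Matrix.cons_val_one, Matrix.cons_val_fin_one, mul_one, mul_zero,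
        add_zero] at e00 e01 e10 e11
      have h00 : ((g 0 0 : ℤ) : ℝ) = 1 := e00.symm
      rw [h00, one_mul] at e01
      have h01 : (j.val : ℤ) = k.val + g 0 1 * p := by
        have : ((j.val : ℤ) : ℝ) = ((k.val + g 0 1 * p : ℤ) : ℝ) := by
          push_cast
          linarith
        exact_mod_cast this
      have hjk : ((j.val : ℤ) : ZMod p) = ((k.val : ℤ) : ZMod p) := by
        rw [h01]
        push_cast
        simp
      simp only [Int.cast_natCast, ZMod.natCast_zmod_val] at hjk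
      rw [hjk]

/-- The Hecke representatives form a coset system from `Γ₀(N)` to `Γ₀(N)`. -/
theorem heckeSystem (hpN : ¬ p ∣ N) : IsCosetSystem (ιN N) (ιN N) (heckeRep p) where
  inj := ιN_injective N
  exists_mul := by
    intro x γ
    refine ⟨hPerm p (γ : SL(2, ℤ)) x, hElt hpN γ x, ?_⟩
    rw [ιN_apply, ιN_apply]
    exact hElt_spec hpN γ x
  eq_of_mul := by
    intro x y g e
    rw [ιN_apply] at e
    exact heckeRep_eq_of_mul e

theorem heckeSystem_spec (hpN : ¬ p ∣ N) (x : OnePoint (ZMod p)) (γ : Gamma0 N) :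
    heckeRep p x * ιN N γ = ιN N (hElt hpN γ x) * heckeRep p (hPerm p (γ : SL(2, ℤ)) x) := by
  rw [ιN_apply, ιN_apply]
  exact hElt_spec hpN γ x

theorem heckeSystem_act (hpN : ¬ p ∣ N) (x : OnePoint (ZMod p)) (γ : Gamma0 N) :
    (heckeSystem hpN).act x γ = hPerm p (γ : SL(2, ℤ)) x :=
  (heckeSystem hpN).act_eq (heckeSystem_spec hpN x γ)

theorem heckeSystem_coc (hpN : ¬ p ∣ N) (x : OnePoint (ZMod p)) (γ : Gamma0 N) :
    (heckeSystem hpN).coc x γ = hElt hpN γ x :=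
  (heckeSystem hpN).coc_eq (heckeSystem_spec hpN x γ)

/-- `heckeTransfer` is the transfer of the Hecke coset system. -/
theorem heckeTransfer_eq_transfer {A : Type*} [AddCommGroup A] (hpN : ¬ p ∣ N)
    (φ : Additive (Gamma0 N) →+ A) : heckeTransfer hpN φ = (heckeSystem hpN).transfer φ := by
  refine AddMonoidHom.ext fun g' => ?_
  obtain ⟨g, rfl⟩ : ∃ g : Gamma0 N, Additive.ofMul g = g' := ⟨Additive.toMul g', rfl⟩
  rw [heckeTransfer_apply, IsCosetSystem.transfer_apply]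
  exact Finset.sum_congr rfl fun x _ => by rw [heckeSystem_coc]

/-- Construction of an element of `Γ₀(N)` from its entries. -/
def mkGamma0 (N : ℕ) (a b c d : ℤ) (hdet : a * d - b * c = 1) (hc : (N : ℤ) ∣ c) : Gamma0 N :=
  ⟨⟨!![a, b; c, d], by rw [Matrix.det_fin_two_of]; exact hdet⟩,
    mem_Gamma0_of_dvd (by simpa using hc)⟩

theorem mkGamma0_apply (N : ℕ) (a b c d : ℤ) (hdet : a * d - b * c = 1) (hc : (N : ℤ) ∣ c) :
    ((mkGamma0 N a b c d hdet hc : Gamma0 N) : SL(2, ℤ)) 0 0 = a ∧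
    ((mkGamma0 N a b c d hdet hc : Gamma0 N) : SL(2, ℤ)) 0 1 = b ∧
    ((mkGamma0 N a b c d hdet hc : Gamma0 N) : SL(2, ℤ)) 1 0 = c ∧
    ((mkGamma0 N a b c d hdet hc : Gamma0 N) : SL(2, ℤ)) 1 1 = d := by
  simp [mkGamma0]

/-- Every point of `ℙ¹(𝔽_p)` is in the orbit of `∞` under `Γ₀(N)` (`p ∤ N`). -/
theorem exists_act_infty (hpN : ¬ p ∣ N) (y : OnePoint (ZMod p)) :
    ∃ γ : Gamma0 N, (heckeSystem hpN).act OnePoint.infty γ = y := by
  induction y using OnePoint.rec with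
  | infty => exact ⟨1, (heckeSystem hpN).act_one _⟩
  | coe j =>
    have hcop : IsCoprime (N : ℤ) (p : ℤ) := by
      rw [Int.isCoprime_iff_gcd_eq_one, Int.gcd_natCast_natCast]
      exact (Nat.Coprime.symm ((Fact.out : p.Prime).coprime_iff_not_dvd.mpr hpN))
    obtain ⟨u, v, huv⟩ := hcop
    -- `u * N + v * p = 1`
    let γ : Gamma0 N := mkGamma0 N 1 ((j.val : ℤ) - u) N (1 + N * ((j.val : ℤ) - u)) (by ring)
      (dvd_refl _)
    let g : Gamma0 N := mkGamma0 N p (-u) N v (by linear_combination huv) (dvd_refl _)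
    refine ⟨γ, (heckeSystem hpN).act_eq (g := g) ?_⟩
    obtain ⟨γ00, γ01, γ10, γ11⟩ := mkGamma0_apply N 1 ((j.val : ℤ) - u) N
      (1 + N * ((j.val : ℤ) - u)) (by ring) (dvd_refl _)
    obtain ⟨g00, g01, g10, g11⟩ := mkGamma0_apply N p (-u) N v (by linear_combination huv)
      (dvd_refl _)
    have huv' : (u : ℝ) * N + v * p = 1 := by exact_mod_cast huv
    apply gl_ext <;>
      simp only [coe_mul_apply, coe_ιN_apply, coe_heckeRep_infty, coe_heckeRep_coe, Matrix.of_apply,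
        Matrix.cons_val', Matrix.cons_val_zero, Matrix.cons_val_one, Matrix.cons_val_fin_one,
        γ, g, γ00, γ01, γ10, γ11, g00, g01, g10, g11] <;>
      push_cast
    · ring
    · ring
    · ring
    · linear_combination (-1 : ℝ) * huv'

/-- `Γ₀(N)` acts transitively on `ℙ¹(𝔽_p)` (`p ∤ N`). -/
theorem heckeSystem_transitive (hpN : ¬ p ∣ N) (y y' : OnePoint (ZMod p)) :
    ∃ γ : Gamma0 N, (heckeSystem hpN).act y γ = y' := by
  obtain ⟨γ, hγ⟩ := exists_act_infty hpN y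
  obtain ⟨γ', hγ'⟩ := exists_act_infty hpN y'
  refine ⟨γ⁻¹ * γ', ?_⟩
  have h1 : (heckeSystem hpN).act y γ⁻¹ = OnePoint.infty := by
    rw [← hγ, ← (heckeSystem hpN).act_mul, mul_inv_cancel, (heckeSystem hpN).act_one]
  rw [(heckeSystem hpN).act_mul, h1, hγ']

end Hecke

end Fermat.Agent.S41.H761
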