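import Mathlib
import Fermat.Agent.S41.Spec.HK
import Fermat.Agent.S41.H761.CosetSystem
import Fermat.Agent.S41.H761.HKSystems

/-!
# `transferAlong` as the transfer of a coset system (helper761, row S41, block HK)
-/

set_option autoImplicit false

namespace Fermat.Agent.S41.H761

open CongruenceSubgroup Matrix.SpecialLinearGroup ModularForm
open Fermat.Agent.S29.H642 Fermat.Agent.S41.Spec
open P2MW.S_ModularForm_heckeT_slash_eq_self_of_mem_Gamma0.ModularForm.HeckeSlashInvariance
open scoped MatrixGroups

section General

variable {H' G 𝒢 : Type*} [Group H'] [Group G] [Group 𝒢] {A : Type*} [AddCommGroup A]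

/-- `transferAlong f` is the transfer of the coset system `ofTransfer f`. -/
theorem transferAlong_eq (f : H' →* G) (hf : Function.Injective f) [hfin : f.range.FiniteIndex]
    [Fintype (G ⧸ f.range)] (ι : G →* 𝒢) (hι : Function.Injective ι) (ψ : Additive H' →+ A) :
    transferAlong f ψ = (IsCosetSystem.ofTransfer f hf ι hι).transfer ψ := by
  refine AddMonoidHom.ext fun g' => ?_
  obtain ⟨g, rfl⟩ : ∃ g : G, Additive.ofMul g = g' := ⟨Additive.toMul g', rfl⟩
  rw [IsCosetSystem.transfer_apply]
  unfold transferAlong
  rw [dif_pos ⟨hf, hfin⟩]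
  show Multiplicative.toAdd (MonoidHom.transfer _ g) = _
  rw [transfer_eq_prod_out, toAdd_prod]
  refine Finset.sum_congr (by ext; simp) fun q _ => ?_
  show ψ (Additive.ofMul ((MonoidHom.ofInjective hf).symm _)) = _
  congr 2
  apply hf
  rw [(IsCosetSystem.ofTransfer_act f hf ι hι q g).2]
  exact congrArg Subtype.val ((MonoidHom.ofInjective hf).apply_symm_apply _)

/-- The transfer of a restricted class is the multiplication by the index. -/
theorem transferAlong_comp (f : H' →* G) (hf : Function.Injective f) [hfin : f.range.FiniteIndex]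
    (φ : Additive G →+ A) :
    transferAlong f (φ.comp (MonoidHom.toAdditive f)) = (Nat.card (G ⧸ f.range)) • φ := by
  classical
  let _ : Fintype (G ⧸ f.range) := f.range.fintypeQuotientOfFiniteIndex
  rw [transferAlong_eq f hf (MonoidHom.id G) Function.injective_id]
  refine AddMonoidHom.ext fun g' => ?_
  obtain ⟨g, rfl⟩ : ∃ g : G, Additive.ofMul g = g' := ⟨Additive.toMul g', rfl⟩
  rw [IsCosetSystem.transfer_apply]
  have h1 : ∀ q : G ⧸ f.range,
      (φ.comp (MonoidHom.toAdditive f))
        (Additive.ofMul ((IsCosetSystem.ofTransfer f hf (MonoidHom.id G)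
          Function.injective_id).coc q g)) =
      - φ (Additive.ofMul q.out) + φ (Additive.ofMul g) + φ (Additive.ofMul (g⁻¹ • q).out) := by
    intro q
    show φ (Additive.ofMul (f ((IsCosetSystem.ofTransfer f hf (MonoidHom.id G)
      Function.injective_id).coc q g))) = _
    rw [(IsCosetSystem.ofTransfer_act f hf (MonoidHom.id G) Function.injective_id q g).2]
    simp only [ofMul_mul, ofMul_inv, map_add, map_neg]
  simp only [h1, Finset.sum_add_distrib, Finset.sum_neg_distrib, Finset.sum_const,
    Finset.card_univ]
  have h2 : ∑ q : G ⧸ f.range, φ (Additive.ofMul (g⁻¹ • q).out) =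
      ∑ q : G ⧸ f.range, φ (Additive.ofMul q.out) :=
    Equiv.sum_comp (MulAction.toPerm g⁻¹) (fun q : G ⧸ f.range => φ (Additive.ofMul q.out))
  rw [h2, Nat.card_eq_fintype_card]
  simp only [AddMonoidHom.coe_smul, Pi.smul_apply]
  abel

end General

end Fermat.Agent.S41.H761
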