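import Mathlib
import Fermat.Agent.S41.Spec.HK
import Fermat.Agent.S41.H105.TransferRestrict
import Fermat.Agent.S41.H761.HKTransfer
import Fermat.Agent.S41.H581.RestrictCusp
import Fermat.Agent.S41.H581.TransferCusp

/-!
# Row S41, block HK, leaf TRH: `t₁ r₂ = T_q = t₂ r₁` (helper761)

`transferRestrictHecke : Spec.TransferRestrictHeckeStatement`.
-/

set_option autoImplicit false

namespace Fermat.Agent.S41.H761

open CongruenceSubgroup Matrix.SpecialLinearGroup ModularForm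
open Fermat.Agent.S29.H642 Fermat.Agent.S41.Spec
open P2MW.S_ModularForm_heckeT_slash_eq_self_of_mem_Gamma0.ModularForm.HeckeSlashInvariance
open scoped MatrixGroups

section TRH

variable {N q : ℕ} [Fact q.Prime]

omit [Fact (Nat.Prime q)] in
theorem conjDelta_apply_entries (γ : Gamma0 (N * q)) :
    ((conjDelta N q γ : Gamma0 N) : SL(2, ℤ)) 0 0 = (γ : SL(2, ℤ)) 0 0 ∧
    ((conjDelta N q γ : Gamma0 N) : SL(2, ℤ)) 0 1 = q * (γ : SL(2, ℤ)) 0 1 ∧
    ((conjDelta N q γ : Gamma0 N) : SL(2, ℤ)) 1 0 * q = (γ : SL(2, ℤ)) 1 0 ∧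
    ((conjDelta N q γ : Gamma0 N) : SL(2, ℤ)) 1 1 = (γ : SL(2, ℤ)) 1 1 := by
  have h := H105.conjDelta_coe_apply N q γ
  have e : ∀ i j, ((conjDelta N q γ : Gamma0 N) : SL(2, ℤ)) i j =
      conjDeltaMatrix q (γ : SL(2, ℤ)) i j := fun i j => by
    have := congrFun (congrFun h i) j
    exact this
  refine ⟨by rw [e]; simp [conjDeltaMatrix], by rw [e]; simp [conjDeltaMatrix], ?_,
    by rw [e]; simp [conjDeltaMatrix]⟩
  rw [e]
  simp only [conjDeltaMatrix, Matrix.of_apply, Matrix.cons_val', Matrix.cons_val_zero,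
    Matrix.cons_val_one, Matrix.cons_val_fin_one]
  exact Int.ediv_mul_cancel (dvd_of_mem_gamma0_mul γ).1

/-- `δ γ = c_δ(γ) δ` for `δ = heckeRep q ∞ = diag(q, 1)`. -/
theorem r2_rel (g' : Gamma0 (N * q)) :
    heckeRep q OnePoint.infty * ((ιN N).comp (incl N q)) g' =
      ιN N (conjDelta N q g') * heckeRep q OnePoint.infty := by
  obtain ⟨c00, c01, c10, c11⟩ := conjDelta_apply_entries g'
  have c10' : ((((conjDelta N q g' : Gamma0 N) : SL(2, ℤ)) 1 0 : ℤ) : ℝ) * (q : ℝ) =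
      (((g' : SL(2, ℤ)) 1 0 : ℤ) : ℝ) := by exact_mod_cast c10
  have hi : ∀ i j, ((((ιN N).comp (incl N q)) g' : GL (Fin 2) ℝ) : Matrix (Fin 2) (Fin 2) ℝ) i j
      = (((g' : SL(2, ℤ)) i j : ℤ) : ℝ) := fun i j => coe_mapGL_apply _ i j
  apply gl_ext <;>
    simp only [coe_mul_apply, coe_ιN_apply, hi, coe_heckeRep_infty, Matrix.of_apply,
      Matrix.cons_val', Matrix.cons_val_zero, Matrix.cons_val_one, Matrix.cons_val_fin_one,
      c00, c01, c11] <;>
    push_cast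
  · ring
  · ring
  · linear_combination (-1 : ℝ) * c10'
  · ring

/-- `D c_δ(γ) = γ D` for `D = heckeRep q 0 = [[1, 0], [0, q]]`. -/
theorem r1_rel (g' : Gamma0 (N * q)) :
    heckeRep q ((0 : ZMod q) : OnePoint (ZMod q)) * ((ιN N).comp (conjDelta N q)) g' =
      ιN N (incl N q g') * heckeRep q ((0 : ZMod q) : OnePoint (ZMod q)) := by
  obtain ⟨c00, c01, c10, c11⟩ := conjDelta_apply_entries g'
  have c10' : ((((conjDelta N q g' : Gamma0 N) : SL(2, ℤ)) 1 0 : ℤ) : ℝ) * (q : ℝ) =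
      (((g' : SL(2, ℤ)) 1 0 : ℤ) : ℝ) := by exact_mod_cast c10
  have hi : ∀ i j, ((((ιN N).comp (conjDelta N q)) g' : GL (Fin 2) ℝ) :
      Matrix (Fin 2) (Fin 2) ℝ) i j
      = ((((conjDelta N q g' : Gamma0 N) : SL(2, ℤ)) i j : ℤ) : ℝ) := fun i j =>
    coe_mapGL_apply _ i j
  have hi' : ∀ i j, ((ιN N (incl N q g') : GL (Fin 2) ℝ) : Matrix (Fin 2) (Fin 2) ℝ) i j
      = (((g' : SL(2, ℤ)) i j : ℤ) : ℝ) := fun i j => coe_mapGL_apply _ i j
  apply gl_ext <;>
    simp only [coe_mul_apply, hi, hi', coe_heckeRep_coe, ZMod.val_zero, Matrix.of_apply,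
      Matrix.cons_val', Matrix.cons_val_zero, Matrix.cons_val_one, Matrix.cons_val_fin_one,
      c00, c01, c11] <;>
    push_cast
  · ring
  · ring
  · linear_combination c10'
  · ring

omit [Fact (Nat.Prime q)] in
theorem rel_mul_inv {D : GL (Fin 2) ℝ} {a b g : Gamma0 N}
    (e : D * ιN N a = ιN N g * (D * ιN N b)) : D * ιN N (a * b⁻¹) = ιN N g * D := by
  rw [map_mul, map_inv, ← mul_assoc, e, mul_assoc, mul_assoc, mul_inv_cancel, mul_one]

/-- Distinctness of the cosets of the product system of `t₁ r₂`. -/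
theorem prod_S2_t1r2 (hq : ¬ q ∣ N) (x y : Gamma0 N ⧸ (incl N q).range) (g : Gamma0 N)
    (e : heckeRep q OnePoint.infty * ιN N (x.out)⁻¹ =
      ιN N g * (heckeRep q OnePoint.infty * ιN N (y.out)⁻¹)) : x = y := by
  have e2 := rel_mul_inv e
  have e10 := congrArg (fun M : GL (Fin 2) ℝ => (M : Matrix (Fin 2) (Fin 2) ℝ) 1 0) e2
  simp only [coe_mul_apply, coe_ιN_apply, coe_heckeRep_infty, Matrix.of_apply,
    Matrix.cons_val', Matrix.cons_val_zero, Matrix.cons_val_one, Matrix.cons_val_fin_one,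
    zero_mul, one_mul, zero_add, mul_zero, add_zero] at e10
  have e10' : (((x.out)⁻¹ * ((y.out)⁻¹)⁻¹ : Gamma0 N) : SL(2, ℤ)) 1 0 =
      (g : SL(2, ℤ)) 1 0 * q := by exact_mod_cast e10
  have hmem : (x.out)⁻¹ * ((y.out)⁻¹)⁻¹ ∈ (incl N q).range :=
    (H105.mem_range_incl_iff (Fact.out : q.Prime) hq _).mpr ⟨(g : SL(2, ℤ)) 1 0, by
      rw [e10', mul_comm]⟩
  rw [inv_inv] at hmem
  have h3 := QuotientGroup.eq.mpr hmem
  rwa [QuotientGroup.out_eq', QuotientGroup.out_eq'] at h3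

/-- Distinctness of the cosets of the product system of `t₂ r₁`. -/
theorem prod_S2_t2r1 (x y : Gamma0 N ⧸ (conjDelta N q).range) (g : Gamma0 N)
    (e : heckeRep q ((0 : ZMod q) : OnePoint (ZMod q)) * ιN N (x.out)⁻¹ =
      ιN N g * (heckeRep q ((0 : ZMod q) : OnePoint (ZMod q)) * ιN N (y.out)⁻¹)) : x = y := by
  have e2 := rel_mul_inv e
  have e01 := congrArg (fun M : GL (Fin 2) ℝ => (M : Matrix (Fin 2) (Fin 2) ℝ) 0 1) e2
  simp only [coe_mul_apply, coe_ιN_apply, coe_heckeRep_coe, ZMod.val_zero, Matrix.of_apply,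
    Matrix.cons_val', Matrix.cons_val_zero, Matrix.cons_val_one, Matrix.cons_val_fin_one,
    zero_mul, one_mul, zero_add, mul_zero, add_zero, Nat.cast_zero] at e01
  have e01' : (((x.out)⁻¹ * ((y.out)⁻¹)⁻¹ : Gamma0 N) : SL(2, ℤ)) 0 1 =
      (g : SL(2, ℤ)) 0 1 * q := by exact_mod_cast e01
  have hmem : (x.out)⁻¹ * ((y.out)⁻¹)⁻¹ ∈ (conjDelta N q).range :=
    (H105.mem_range_conjDelta_iff N (Fact.out : q.Prime).ne_zero _).mpr ⟨(g : SL(2, ℤ)) 0 1, by
      rw [e01', mul_comm]⟩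
  rw [inv_inv] at hmem
  have h3 := QuotientGroup.eq.mpr hmem
  rwa [QuotientGroup.out_eq', QuotientGroup.out_eq'] at h3

variable {A : Type*} [AddCommGroup A]

/-- `t₁ r₂ = T_q`. -/
theorem t1_r2 (hq : ¬ q ∣ N) (φ : Additive (Gamma0 N) →+ A) :
    t₁ N q (r₂ N q φ) = heckeTransfer hq φ := by
  have hqp : q.Prime := Fact.out
  have hN : N ≠ 0 := by rintro rfl; exact hq (dvd_zero q)
  have : (incl N q).range.FiniteIndex := ⟨by rw [H105.index_range_incl hN hqp hq]; omega⟩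
  let _ : Fintype (Gamma0 N ⧸ (incl N q).range) := (incl N q).range.fintypeQuotientOfFiniteIndex
  have hs1 := IsCosetSystem.single (ι' := (ιN N).comp (incl N q)) (ιN_injective N)
    (conjDelta N q) (heckeRep q OnePoint.infty) r2_rel
  have hs2 := IsCosetSystem.ofTransfer (incl N q) (H105.incl_injective N q) (ιN N)
    (ιN_injective N)
  have hprod := hs1.prod hs2 (fun _ _ x y g e => ⟨rfl, prod_S2_t1r2 hq x y g e⟩)
  show transferAlong (incl N q) (r₂ N q φ) = _
  rw [transferAlong_eq (incl N q) (H105.incl_injective N q) (ιN N) (ιN_injective N)]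
  have hr2 : r₂ N q φ = hs1.transfer φ :=
    (IsCosetSystem.single_transfer (ι' := (ιN N).comp (incl N q)) (ιN_injective N)
      (conjDelta N q) (heckeRep q OnePoint.infty) r2_rel φ).symm
  rw [hr2, IsCosetSystem.transfer_comp hs1 hs2 hprod, heckeTransfer_eq_transfer]
  have : Nonempty (Unit × (Gamma0 N ⧸ (incl N q).range)) := ⟨((), ((1 : Gamma0 N) : _))⟩
  refine IsCosetSystem.transfer_eq_of_le hprod (heckeSystem hq) (fun z => ?_)
    (heckeSystem_transitive hq) φ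
  exact ⟨_, _, heckeSystem_spec hq OnePoint.infty (z.2.out)⁻¹⟩

/-- `t₂ r₁ = T_q`. -/
theorem t2_r1 (hq : ¬ q ∣ N) (φ : Additive (Gamma0 N) →+ A) :
    t₂ N q (r₁ N q φ) = heckeTransfer hq φ := by
  have hqp : q.Prime := Fact.out
  have hN : N ≠ 0 := by rintro rfl; exact hq (dvd_zero q)
  have : (conjDelta N q).range.FiniteIndex :=
    ⟨by rw [H105.index_range_conjDelta hN hqp hq]; omega⟩
  let _ : Fintype (Gamma0 N ⧸ (conjDelta N q).range) :=
    (conjDelta N q).range.fintypeQuotientOfFiniteIndex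
  have hinj := H105.conjDelta_injective N hqp.ne_zero
  have hs1 := IsCosetSystem.single (ι' := (ιN N).comp (conjDelta N q)) (ιN_injective N)
    (incl N q) (heckeRep q ((0 : ZMod q) : OnePoint (ZMod q))) r1_rel
  have hs2 := IsCosetSystem.ofTransfer (conjDelta N q) hinj (ιN N) (ιN_injective N)
  have hprod := hs1.prod hs2 (fun _ _ x y g e => ⟨rfl, prod_S2_t2r1 x y g e⟩)
  show transferAlong (conjDelta N q) (r₁ N q φ) = _
  rw [transferAlong_eq (conjDelta N q) hinj (ιN N) (ιN_injective N)]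
  have hr1 : r₁ N q φ = hs1.transfer φ :=
    (IsCosetSystem.single_transfer (ι' := (ιN N).comp (conjDelta N q)) (ιN_injective N)
      (incl N q) (heckeRep q ((0 : ZMod q) : OnePoint (ZMod q))) r1_rel φ).symm
  rw [hr1, IsCosetSystem.transfer_comp hs1 hs2 hprod, heckeTransfer_eq_transfer]
  have : Nonempty (Unit × (Gamma0 N ⧸ (conjDelta N q).range)) := ⟨((), ((1 : Gamma0 N) : _))⟩
  refine IsCosetSystem.transfer_eq_of_le hprod (heckeSystem hq) (fun z => ?_)
    (heckeSystem_transitive hq) φ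
  exact ⟨_, _, heckeSystem_spec hq ((0 : ZMod q) : OnePoint (ZMod q)) (z.2.out)⁻¹⟩

end TRH

universe u

/-- **Leaf TRH of block HK**: `t₁ r₂ = T_q = t₂ r₁`. -/
theorem transferRestrictHecke : Spec.TransferRestrictHeckeStatement.{u} := by
  intro N q _ hq _ A _ φ
  exact ⟨t1_r2 hq φ, t2_r1 hq φ⟩

/-- **Leaf HC of block HK**: `T_l` preserves cuspidal classes
(from `T_l = t₁ r₂` at level `(N, l)` and the leaves RC, TC). -/
theorem heckeCusp_of (hRC : Spec.RestrictCuspStatement.{u}) (hTC : Spec.TransferCuspStatement.{u}) :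
    Spec.HeckeCuspStatement.{u} := by
  intro N l _ hl A _ φ hφ
  rw [← t1_r2 hl φ]
  exact (hTC N l A _ (hRC N l A φ hφ).2).1

/-- **Leaf HC of block HK**, unconditional (RC and TC by helper581). -/
theorem heckeCusp : Spec.HeckeCuspStatement.{u} :=
  heckeCusp_of H581.restrictCusp H581.transferCusp

end Fermat.Agent.S41.H761
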