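import Mathlib
import Fermat.Agent.S41.H761.CosetSystem

/-!
# Coset systems, part 2 (helper761, row S41, block HK)

* `transfer_eq_of_le_of_card` : comparison of two coset systems with index sets of the same
  cardinality;
* `IsCosetSystem.conj` : conjugation of a coset system by an element of the ambient group.
-/

set_option autoImplicit false

namespace Fermat.Agent.S41.H761

namespace IsCosetSystem

variable {𝒢 Γ Γ' : Type*} [Group 𝒢] [Group Γ] [Group Γ']
variable {I J : Type*} {ι : Γ →* 𝒢} {ι' : Γ' →* 𝒢} {ρ : I → 𝒢} {ρ' : J → 𝒢}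
variable {A : Type*} [AddCommGroup A]

/-- **Comparison** (cardinality version).  Two coset systems with index sets of the same
cardinality such that every coset of the first is a coset of the second have the same transfer. -/
theorem transfer_eq_of_le_of_card [Fintype I] [Fintype J] (h : IsCosetSystem ι ι' ρ)
    (h' : IsCosetSystem ι ι' ρ') (hcard : Fintype.card I = Fintype.card J)
    (hle : ∀ i, ∃ (j : J) (g : Γ), ρ i = ι g * ρ' j) (φ : Additive Γ →+ A) :
    h.transfer φ = h'.transfer φ := by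
  classical
  choose e β hβ using hle
  have key : ∀ (i : I) (g' : Γ'), h'.act (e i) g' = e (h.act i g') ∧
      h'.coc (e i) g' = (β i)⁻¹ * h.coc i g' * β (h.act i g') := by
    intro i g'
    apply h'.unique
    have h1 : ρ' (e i) = ι (β i)⁻¹ * ρ i := by
      rw [hβ i, map_inv, inv_mul_cancel_left]
    rw [h1, mul_assoc, h.spec i g', hβ (h.act i g')]
    simp only [map_mul, map_inv, mul_assoc]
  have einj : Function.Injective e := by
    intro i i' hii
    apply h.eq_of_mul i i' (β i * (β i')⁻¹)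
    rw [hβ i, hii, map_mul, map_inv, mul_assoc, hβ i', inv_mul_cancel_left]
  have ebij : Function.Bijective e :=
    (Fintype.bijective_iff_injective_and_card e).mpr ⟨einj, hcard⟩
  let E : I ≃ J := Equiv.ofBijective e ebij
  refine AddMonoidHom.ext fun g' => ?_
  obtain ⟨g, rfl⟩ : ∃ g : Γ', Additive.ofMul g = g' := ⟨Additive.toMul g', rfl⟩
  rw [transfer_apply, transfer_apply, ← Equiv.sum_comp E]
  have hE : ∀ i, E i = e i := fun _ => rfl
  simp only [hE, (key _ g).2, ofMul_mul, ofMul_inv, map_add, map_neg, Finset.sum_add_distrib,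
    Finset.sum_neg_distrib]
  have hperm : ∑ i, φ (Additive.ofMul (β (h.act i g))) = ∑ i, φ (Additive.ofMul (β i)) :=
    Equiv.sum_comp (h.actEquiv g) (fun i => φ (Additive.ofMul (β i)))
  rw [hperm]
  abel

/-- Conjugation of a coset system: if `d * ι g = κ g * d` and `d * ι' g' = κ' g' * d`, then
`i ↦ d * ρ i * d⁻¹` is a coset system for `κ, κ'`. -/
theorem conj (h : IsCosetSystem ι ι' ρ) (d : 𝒢) {κ : Γ →* 𝒢} {κ' : Γ' →* 𝒢}
    (hκ : ∀ g, d * ι g = κ g * d) (hκ' : ∀ g', d * ι' g' = κ' g' * d) :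
    IsCosetSystem κ κ' (fun i => d * ρ i * d⁻¹) where
  inj := by
    intro g g' e
    apply h.inj
    have h1 := hκ g
    have h2 := hκ g'
    rw [e, ← h2] at h1
    exact mul_left_cancel h1
  exists_mul := by
    intro i g'
    refine ⟨h.act i g', h.coc i g', ?_⟩
    have h1 : κ' g' = d * ι' g' * d⁻¹ := by rw [hκ' g', mul_inv_cancel_right]
    have h2 : κ (h.coc i g') = d * ι (h.coc i g') * d⁻¹ := by rw [hκ _, mul_inv_cancel_right]
    rw [h1, h2]
    simp only [mul_assoc, inv_mul_cancel_left]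
    rw [← mul_assoc (ρ i), h.spec i g']
    simp only [mul_assoc]
  eq_of_mul := by
    intro i j g e
    apply h.eq_of_mul i j g
    have h2 : κ g = d * ι g * d⁻¹ := by rw [hκ _, mul_inv_cancel_right]
    rw [h2] at e
    simp only [mul_assoc, inv_mul_cancel_left] at e
    have e2 := mul_left_cancel e
    rw [← mul_assoc] at e2
    exact mul_right_cancel e2

theorem conj_coc (h : IsCosetSystem ι ι' ρ) (d : 𝒢) {κ : Γ →* 𝒢} {κ' : Γ' →* 𝒢}
    (hκ : ∀ g, d * ι g = κ g * d) (hκ' : ∀ g', d * ι' g' = κ' g' * d) (i : I) (g' : Γ') :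
    (h.conj d hκ hκ').coc i g' = h.coc i g' := by
  apply (h.conj d hκ hκ').coc_eq (j := h.act i g')
  have h1 : κ' g' = d * ι' g' * d⁻¹ := by rw [hκ' g', mul_inv_cancel_right]
  have h2 : κ (h.coc i g') = d * ι (h.coc i g') * d⁻¹ := by rw [hκ _, mul_inv_cancel_right]
  rw [h1, h2]
  simp only [mul_assoc, inv_mul_cancel_left]
  rw [← mul_assoc (ρ i), h.spec i g']
  simp only [mul_assoc]

theorem conj_transfer [Fintype I] (h : IsCosetSystem ι ι' ρ) (d : 𝒢) {κ : Γ →* 𝒢}
    {κ' : Γ' →* 𝒢} (hκ : ∀ g, d * ι g = κ g * d) (hκ' : ∀ g', d * ι' g' = κ' g' * d)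
    (φ : Additive Γ →+ A) : (h.conj d hκ hκ').transfer φ = h.transfer φ := by
  refine AddMonoidHom.ext fun g' => ?_
  obtain ⟨g, rfl⟩ : ∃ g : Γ', Additive.ofMul g = g' := ⟨Additive.toMul g', rfl⟩
  rw [transfer_apply, transfer_apply]
  exact Finset.sum_congr rfl fun i _ => by rw [conj_coc h d hκ hκ']

/-- A coset system only depends on the values of the embeddings. -/
theorem congr (h : IsCosetSystem ι ι' ρ) {κ : Γ →* 𝒢} {κ' : Γ' →* 𝒢} (hκ : ∀ g, ι g = κ g)
    (hκ' : ∀ g', ι' g' = κ' g') : IsCosetSystem κ κ' ρ := by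
  have e1 : ι = κ := MonoidHom.ext hκ
  have e2 : ι' = κ' := MonoidHom.ext hκ'
  rw [← e1, ← e2]
  exact h

end IsCosetSystem

end Fermat.Agent.S41.H761
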