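import Mathlib
import Fermat.Agent.S41.Spec.HK
import Fermat.Agent.S41.H105.TransferRestrict
import Fermat.Agent.S41.H761.HKTransfer
import Fermat.Agent.S41.H761.CosetSystem2

/-!
# Row S41, block HK, leaf HT: `T_l t_i = t_i T_l` (helper761)

`heckeTransferComm : Spec.HeckeTransferStatement`.
-/

set_option autoImplicit false

namespace Fermat.Agent.S41.H761

open CongruenceSubgroup Matrix.SpecialLinearGroup ModularForm
open Fermat.Agent.S29.H642 Fermat.Agent.S41.Spec
open P2MW.S_ModularForm_heckeT_slash_eq_self_of_mem_Gamma0.ModularForm.HeckeSlashInvariance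
open scoped MatrixGroups

section General

variable {N M l : ℕ} [Fact l.Prime] {A : Type*} [AddCommGroup A]

/-- **General commutation lemma.**  `f : Γ₀(M) →* Γ₀(N)` injective with finite index range, realized
by conjugation by `d`; the conjugated Hecke representatives `d α_y d⁻¹` are Hecke representatives
up to `Γ₀(N)`, and the cosets of the family `d α_y d⁻¹ x⁻¹` are distinct.  Then the Hecke operator
commutes with the transfer along `f`. -/
theorem heckeTransfer_transferAlong (hl : ¬ l ∣ N) (hl' : ¬ l ∣ M) (f : Gamma0 M →* Gamma0 N)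
    (hf : Function.Injective f) [f.range.FiniteIndex] (d : GL (Fin 2) ℝ)
    (hd : ∀ g : Gamma0 M, d * ιN M g = ((ιN N).comp f) g * d)
    (H1 : ∀ y : OnePoint (ZMod l), ∃ (u : Gamma0 N) (y' : OnePoint (ZMod l)),
      d * heckeRep l y * d⁻¹ = ιN N u * heckeRep l y')
    (H2 : ∀ (y y' : OnePoint (ZMod l)) (m : Gamma0 N) (g : Gamma0 M) (Q : GL (Fin 2) ℝ),
      d * Q = ιN N m * d → heckeRep l y * Q = ιN M g * heckeRep l y' → m ∈ f.range)
    (ψ : Additive (Gamma0 M) →+ A) :
    heckeTransfer hl (transferAlong f ψ) = transferAlong f (heckeTransfer hl' ψ) := by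
  classical
  let _ : Fintype (Gamma0 N ⧸ f.range) := f.range.fintypeQuotientOfFiniteIndex
  have sysT' := (heckeSystem hl').conj d hd hd
  have sysTr := IsCosetSystem.ofTransfer f hf (ιN N) (ιN_injective N)
  have sysT := heckeSystem (N := N) hl
  -- family A
  have famA := sysTr.prod sysT (by
    intro x x' y y' g e
    have e2 : heckeRep l y = ιN N (x.out * f g * (x'.out)⁻¹) * heckeRep l y' := by
      have h1 : heckeRep l y = ιN N x.out * (ιN N (x.out)⁻¹ * heckeRep l y) := by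
        rw [map_inv, mul_inv_cancel_left]
      rw [h1, e]
      simp only [MonoidHom.comp_apply, map_mul, mul_assoc]
    have hy := sysT.eq_of_mul _ _ _ e2
    subst hy
    have e3 : ιN N (x.out * f g * (x'.out)⁻¹) = 1 := by
      have h2 : ιN N (x.out * f g * (x'.out)⁻¹) * heckeRep l y = 1 * heckeRep l y := by
        rw [one_mul]; exact e2.symm
      exact mul_right_cancel h2
    have e4 : x.out * f g * (x'.out)⁻¹ = 1 := ιN_injective N (e3.trans (map_one _).symm)
    have e5 : f g = (x.out)⁻¹ * x'.out := by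
      have := congrArg (fun t => (x.out)⁻¹ * t * x'.out) e4
      simpa [mul_assoc] using this
    have hmem : (x.out)⁻¹ * x'.out ∈ f.range := ⟨g, e5⟩
    have h3 := QuotientGroup.eq.mpr hmem
    rw [QuotientGroup.out_eq', QuotientGroup.out_eq'] at h3
    exact ⟨h3, rfl⟩)
  -- family B
  have famB := sysT'.prod sysTr (by
    intro y y' x x' g e
    have hfg : ((ιN N).comp f) g = d * ιN M g * d⁻¹ := by
      rw [hd g, mul_inv_cancel_right]
    have hQ : heckeRep l y * (d⁻¹ * ιN N ((x.out)⁻¹ * x'.out) * d) = ιN M g * heckeRep l y' := by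
      have e' := congrArg (fun t => d⁻¹ * t * (ιN N (x'.out)⁻¹)⁻¹ * d) e
      simp only [hfg, mul_assoc, inv_mul_cancel_left, inv_mul_cancel, mul_one, map_inv,
        inv_inv] at e'
      simp only [map_mul, map_inv, mul_assoc]
      exact e'
    have hmem := H2 y y' ((x.out)⁻¹ * x'.out) g (d⁻¹ * ιN N ((x.out)⁻¹ * x'.out) * d)
      (by simp only [mul_assoc, mul_inv_cancel_left]) hQ
    have hx : x = x' := by
      have h3 := QuotientGroup.eq.mpr hmem
      rwa [QuotientGroup.out_eq', QuotientGroup.out_eq'] at h3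
    subst hx
    refine ⟨?_, rfl⟩
    have e2 := mul_right_cancel (e.trans (mul_assoc _ _ _).symm)
    exact sysT'.eq_of_mul _ _ _ e2)
  rw [transferAlong_eq f hf (ιN N) (ιN_injective N),
    transferAlong_eq f hf (ιN N) (ιN_injective N), heckeTransfer_eq_transfer,
    heckeTransfer_eq_transfer, ← IsCosetSystem.conj_transfer (heckeSystem hl') d hd hd]
  rw [IsCosetSystem.transfer_comp sysTr sysT famA, IsCosetSystem.transfer_comp sysT' sysTr famB]
  symm
  refine IsCosetSystem.transfer_eq_of_le_of_card famB famA ?_ ?_ ψ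
  · rw [Fintype.card_prod, Fintype.card_prod, mul_comm]
  · rintro ⟨y, x⟩
    obtain ⟨u, y₁, hu⟩ := H1 y
    set w : Gamma0 N := u * hElt hl (x.out)⁻¹ y₁ with hw
    have hmem : (w⁻¹)⁻¹ * ((w⁻¹ : Gamma0 N) : Gamma0 N ⧸ f.range).out ∈ f.range :=
      QuotientGroup.eq.mp (QuotientGroup.out_eq' _).symm
    obtain ⟨g, hg⟩ := hmem
    rw [inv_inv] at hg
    refine ⟨(((w⁻¹ : Gamma0 N) : Gamma0 N ⧸ f.range), hPerm l ((x.out)⁻¹ : Gamma0 N) y₁), g, ?_⟩
    rw [hu, mul_assoc, heckeSystem_spec hl y₁ (x.out)⁻¹, MonoidHom.comp_apply, hg]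
    simp only [map_mul, map_inv, mul_assoc, hw]
    rw [mul_inv_cancel_left]

/-- The shape of the Hecke representatives. -/
theorem heckeRep_form (y : OnePoint (ZMod l)) : ∃ a b d : ℤ,
    ((heckeRep l y : GL (Fin 2) ℝ) : Matrix (Fin 2) (Fin 2) ℝ) = !![(a : ℝ), (b : ℝ); 0, (d : ℝ)] ∧
    a * d = l := by
  induction y using OnePoint.rec with
  | infty => exact ⟨l, 0, 1, by rw [coe_heckeRep_infty]; simp, by simp⟩
  | coe j => exact ⟨1, j.val, l, by rw [coe_heckeRep_coe]; simp, by simp⟩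

theorem heckeTransfer_zero (hl : ¬ l ∣ N) :
    heckeTransfer hl (0 : Additive (Gamma0 N) →+ A) = 0 := by
  have h := heckeTransfer_add hl (0 : Additive (Gamma0 N) →+ A) 0
  rw [add_zero] at h
  exact left_eq_add.mp h

end General

section Level

variable {N q l : ℕ} [Fact l.Prime] {A : Type*} [AddCommGroup A]

/-- `T_l t₁ = t₁ T_l`. -/
theorem heckeTransfer_t1 (hl : ¬ l ∣ N) (hl' : ¬ l ∣ N * q)
    (ψ : Additive (Gamma0 (N * q)) →+ A) :
    heckeTransfer hl (t₁ N q ψ) = t₁ N q (heckeTransfer hl' ψ) := by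
  by_cases hfin : (incl N q).range.FiniteIndex
  · refine heckeTransfer_transferAlong hl hl' (incl N q) (H105.incl_injective N q) 1
      (fun g => by rw [one_mul, mul_one]; rfl)
      (fun y => ⟨1, y, by simp⟩) ?_ ψ
    intro y y' m g Q hQ e
    rw [one_mul, mul_one] at hQ
    subst hQ
    obtain ⟨a, b, d, hα, had⟩ := heckeRep_form (l := l) y
    obtain ⟨a', b', d', hα', had'⟩ := heckeRep_form (l := l) y'
    have e10 := congrArg (fun M : GL (Fin 2) ℝ => (M : Matrix (Fin 2) (Fin 2) ℝ) 1 0) e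
    simp only [coe_mul_apply, coe_ιN_apply, hα, hα', Matrix.of_apply, Matrix.cons_val',
      Matrix.cons_val_zero, Matrix.cons_val_one, Matrix.cons_val_fin_one, zero_mul, zero_add,
      mul_zero, add_zero] at e10
    have e10' : d * (m : SL(2, ℤ)) 1 0 = (g : SL(2, ℤ)) 1 0 * a' := by exact_mod_cast e10
    have hg : ((N * q : ℕ) : ℤ) ∣ (g : SL(2, ℤ)) 1 0 := dvd_of_mem_Gamma0 g.2
    have hcop : IsCoprime (d : ℤ) ((N * q : ℕ) : ℤ) := by
      have hl1 : IsCoprime (l : ℤ) ((N * q : ℕ) : ℤ) := by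
        rw [Int.isCoprime_iff_gcd_eq_one, Int.gcd_natCast_natCast]
        exact (Fact.out : l.Prime).coprime_iff_not_dvd.mpr hl'
      exact IsCoprime.of_mul_left_right (by rw [had]; exact hl1)
    have hdvd : ((N * q : ℕ) : ℤ) ∣ (m : SL(2, ℤ)) 1 0 := by
      have h1 : ((N * q : ℕ) : ℤ) ∣ d * (m : SL(2, ℤ)) 1 0 := by
        rw [e10']; exact dvd_mul_of_dvd_left hg _
      exact hcop.symm.dvd_of_dvd_mul_left h1
    rw [H105.range_incl, Subgroup.mem_subgroupOf]
    exact mem_Gamma0_of_dvd hdvd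
  · have h0 : ∀ χ : Additive (Gamma0 (N * q)) →+ A, t₁ N q χ = 0 := by
      intro χ
      unfold t₁ transferAlong
      rw [dif_neg (fun h => hfin h.2)]
    rw [h0, h0, heckeTransfer_zero]

/-- `δ γ = c_δ(γ) δ` for `δ = heckeDiagMatrix q = diag(q, 1)`, any `q ≠ 0`. -/
theorem diag_rel (hq : q ≠ 0) (g' : Gamma0 (N * q)) :
    heckeDiagMatrix q * ιN (N * q) g' =
      ((ιN N).comp (conjDelta N q)) g' * heckeDiagMatrix q := by
  have hentries := H105.conjDelta_coe_apply N q g'
  have e : ∀ i j, ((conjDelta N q g' : Gamma0 N) : SL(2, ℤ)) i j =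
      conjDeltaMatrix q (g' : SL(2, ℤ)) i j := fun i j => congrFun (congrFun hentries i) j
  have c00 : ((conjDelta N q g' : Gamma0 N) : SL(2, ℤ)) 0 0 = (g' : SL(2, ℤ)) 0 0 := by
    rw [e]; simp [conjDeltaMatrix]
  have c01 : ((conjDelta N q g' : Gamma0 N) : SL(2, ℤ)) 0 1 = q * (g' : SL(2, ℤ)) 0 1 := by
    rw [e]; simp [conjDeltaMatrix]
  have c11 : ((conjDelta N q g' : Gamma0 N) : SL(2, ℤ)) 1 1 = (g' : SL(2, ℤ)) 1 1 := by
    rw [e]; simp [conjDeltaMatrix]
  have c10 : ((conjDelta N q g' : Gamma0 N) : SL(2, ℤ)) 1 0 * q = (g' : SL(2, ℤ)) 1 0 := by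
    rw [e]
    simp only [conjDeltaMatrix, Matrix.of_apply, Matrix.cons_val', Matrix.cons_val_zero,
      Matrix.cons_val_one, Matrix.cons_val_fin_one]
    exact Int.ediv_mul_cancel (dvd_of_mem_gamma0_mul g').1
  have c10' : ((((conjDelta N q g' : Gamma0 N) : SL(2, ℤ)) 1 0 : ℤ) : ℝ) * (q : ℝ) =
      (((g' : SL(2, ℤ)) 1 0 : ℤ) : ℝ) := by exact_mod_cast c10
  have hi : ∀ i j, ((((ιN N).comp (conjDelta N q)) g' : GL (Fin 2) ℝ) :
      Matrix (Fin 2) (Fin 2) ℝ) i j
      = ((((conjDelta N q g' : Gamma0 N) : SL(2, ℤ)) i j : ℤ) : ℝ) := fun i j =>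
    coe_mapGL_apply _ i j
  apply gl_ext <;>
    simp only [coe_mul_apply, coe_ιN_apply, hi, val_heckeDiagMatrix hq, Matrix.of_apply,
      Matrix.cons_val', Matrix.cons_val_zero, Matrix.cons_val_one, Matrix.cons_val_fin_one,
      c00, c01, c11] <;>
    push_cast
  · ring
  · ring
  · linear_combination (-1 : ℝ) * c10'
  · ring

/-- Conjugation of the Hecke representatives by `diag(q, 1)`. -/
theorem diag_conj_heckeRep (hq : q ≠ 0) (y : OnePoint (ZMod l)) :
    ∃ (u : Gamma0 N) (y' : OnePoint (ZMod l)),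
      heckeDiagMatrix q * heckeRep l y * (heckeDiagMatrix q)⁻¹ = ιN N u * heckeRep l y' := by
  induction y using OnePoint.rec with
  | infty =>
    refine ⟨1, OnePoint.infty, ?_⟩
    rw [map_one, one_mul, mul_inv_eq_iff_eq_mul]
    apply gl_ext <;>
      simp only [coe_mul_apply, coe_heckeRep_infty, val_heckeDiagMatrix hq, Matrix.of_apply,
        Matrix.cons_val', Matrix.cons_val_zero, Matrix.cons_val_one, Matrix.cons_val_fin_one] <;>
      ring
  | coe j =>
    obtain ⟨T, Y, hmod⟩ : ∃ (T : ℕ) (Y : ZMod l),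
        ((Y.val : ℕ) : ℝ) + (T : ℝ) * l = (q : ℝ) * j.val := by
      refine ⟨q * j.val / l, ((q * j.val : ℕ) : ZMod l), ?_⟩
      rw [ZMod.val_natCast]
      have := Nat.mod_add_div (q * j.val) l
      have h2 : (((q * j.val) % l + l * (q * j.val / l) : ℕ) : ℝ) = ((q * j.val : ℕ) : ℝ) := by
        rw [this]
      push_cast at h2
      linarith
    obtain ⟨u00, u01, u10, u11⟩ := mkGamma0_apply N 1 (T : ℤ) 0 1 (by ring) (dvd_zero _)
    refine ⟨mkGamma0 N 1 (T : ℤ) 0 1 (by ring) (dvd_zero _), (Y : OnePoint (ZMod l)), ?_⟩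
    rw [mul_inv_eq_iff_eq_mul]
    apply gl_ext <;>
      simp only [coe_mul_apply, coe_ιN_apply, coe_heckeRep_coe, val_heckeDiagMatrix hq,
        Matrix.of_apply, Matrix.cons_val', Matrix.cons_val_zero, Matrix.cons_val_one,
        Matrix.cons_val_fin_one, u00, u01, u10, u11] <;>
      push_cast
    · ring
    · linear_combination (-1 : ℝ) * hmod
    · ring
    · ring

/-- `T_l t₂ = t₂ T_l`. -/
theorem heckeTransfer_t2 (hl : ¬ l ∣ N) (hl' : ¬ l ∣ N * q) (hq : q ≠ 0)
    (ψ : Additive (Gamma0 (N * q)) →+ A) :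
    heckeTransfer hl (t₂ N q ψ) = t₂ N q (heckeTransfer hl' ψ) := by
  by_cases hfin : (conjDelta N q).range.FiniteIndex
  · refine heckeTransfer_transferAlong hl hl' (conjDelta N q) (H105.conjDelta_injective N hq)
      (heckeDiagMatrix q) (diag_rel hq) (diag_conj_heckeRep hq) ?_ ψ
    intro y y' m g Q hQ e
    obtain ⟨a, b, d, hα, had⟩ := heckeRep_form (l := l) y
    obtain ⟨a', b', d', hα', had'⟩ := heckeRep_form (l := l) y'
    have q01 := congrArg (fun M : GL (Fin 2) ℝ => (M : Matrix (Fin 2) (Fin 2) ℝ) 0 1) hQ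
    have q11 := congrArg (fun M : GL (Fin 2) ℝ => (M : Matrix (Fin 2) (Fin 2) ℝ) 1 1) hQ
    have e01 := congrArg (fun M : GL (Fin 2) ℝ => (M : Matrix (Fin 2) (Fin 2) ℝ) 0 1) e
    simp only [coe_mul_apply, coe_ιN_apply, val_heckeDiagMatrix hq, Matrix.of_apply,
      Matrix.cons_val', Matrix.cons_val_zero, Matrix.cons_val_one, Matrix.cons_val_fin_one,
      zero_mul, zero_add, mul_zero, add_zero, one_mul, mul_one] at q01 q11
    simp only [coe_mul_apply, coe_ιN_apply, hα, hα', Matrix.of_apply, Matrix.cons_val',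
      Matrix.cons_val_zero, Matrix.cons_val_one, Matrix.cons_val_fin_one] at e01
    rw [q11] at e01
    -- `a * m01 = q * (g00 * b' + g01 * d' - b * m11)`
    have key : (a : ℝ) * (((m : SL(2, ℤ)) 0 1 : ℤ) : ℝ) =
        (q : ℝ) * ((((g : SL(2, ℤ)) 0 0 : ℤ) : ℝ) * b' + (((g : SL(2, ℤ)) 0 1 : ℤ) : ℝ) * d'
          - b * (((m : SL(2, ℤ)) 1 1 : ℤ) : ℝ)) := by
      rw [← q01]
      linear_combination (q : ℝ) * e01
    have key' : a * (m : SL(2, ℤ)) 0 1 =
        q * ((g : SL(2, ℤ)) 0 0 * b' + (g : SL(2, ℤ)) 0 1 * d' - b * (m : SL(2, ℤ)) 1 1) := by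
      exact_mod_cast key
    have hcop : IsCoprime (a : ℤ) (q : ℤ) := by
      have hlq : ¬ l ∣ q := fun h => hl' (dvd_mul_of_dvd_right h N)
      have hl1 : IsCoprime (l : ℤ) (q : ℤ) := by
        rw [Int.isCoprime_iff_gcd_eq_one, Int.gcd_natCast_natCast]
        exact (Fact.out : l.Prime).coprime_iff_not_dvd.mpr hlq
      exact IsCoprime.of_mul_left_left (by rw [had]; exact hl1)
    have hdvd : (q : ℤ) ∣ (m : SL(2, ℤ)) 0 1 :=
      hcop.symm.dvd_of_dvd_mul_left ⟨_, key'⟩
    exact (H105.mem_range_conjDelta_iff N hq m).mpr hdvd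
  · have h0 : ∀ χ : Additive (Gamma0 (N * q)) →+ A, t₂ N q χ = 0 := by
      intro χ
      unfold t₂ transferAlong
      rw [dif_neg (fun h => hfin h.2)]
    rw [h0, h0, heckeTransfer_zero]

end Level

universe u

/-- **Leaf HT of block HK**: `T_l` commutes with `t₁` and `t₂`. -/
theorem heckeTransferComm : Spec.HeckeTransferStatement.{u} := by
  intro N q l _ hl hl' hNq A _ ψ
  have hq : q ≠ 0 := fun h => hNq (by rw [h, mul_zero])
  exact ⟨heckeTransfer_t1 hl hl' ψ, heckeTransfer_t2 hl hl' hq ψ⟩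

end Fermat.Agent.S41.H761
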