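import Mathlib
import Fermat.Agent.S41.Spec.HK
import Fermat.Agent.S41.H581.Fun
import Fermat.Agent.S41.H581.RestrictCusp
import Fermat.Agent.S41.H581.TransferCusp
import Fermat.Agent.S41.H105.TransferRestrict
import Fermat.Agent.S41.H281.HeckeRestrict
import Fermat.Agent.S41.H281.HeckeComm
import Fermat.Agent.S41.H761.TRH
import Fermat.Agent.S41.H761.HT

/-!
# Row S41, block HK: assembly (helper761, sub-architect of block HK)

`hk : Spec.HKStatement` — the conjunction of the nine leaves of block HK:

| leaf | statement | theorem | owner |
|---|---|---|---|
| FUN  | `Spec.FunctorialityStatement`        | `H581.functoriality`         | helper581 |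
| RC   | `Spec.RestrictCuspStatement`         | `H581.restrictCusp`          | helper581 |
| TC   | `Spec.TransferCuspStatement`         | `H581.transferCusp`          | helper581 |
| HC   | `Spec.HeckeCuspStatement`            | `H761.heckeCusp`             | helper761 |
| HR   | `Spec.HeckeRestrictStatement`        | `H281.heckeRestrict`         | helper281 |
| HT   | `Spec.HeckeTransferStatement`        | `H761.heckeTransferComm`     | helper761 |
| TR   | `Spec.TransferRestrictStatement`     | `H105.transferRestrict`      | helper105 (also helper263) |
| TRH  | `Spec.TransferRestrictHeckeStatement`| `H761.transferRestrictHecke` | helper761 |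
| COMM | `Spec.HeckeCommStatement`            | `H281.heckeComm_of_HT`       | helper281 |
-/

set_option autoImplicit false

namespace Fermat.Agent.S41.H761

universe u

/-- Leaf COMM of block HK, unconditional. -/
theorem heckeComm : Spec.HeckeCommStatement.{u} :=
  H281.heckeComm_of_HT heckeTransferComm

/-- **Block HK** of row S41: all nine leaves. -/
theorem hk : Spec.HKStatement.{u} :=
  ⟨H581.functoriality, H581.restrictCusp, H581.transferCusp, heckeCusp,
    H281.heckeRestrict, heckeTransferComm, H105.transferRestrict,
    transferRestrictHecke, heckeComm⟩

end Fermat.Agent.S41.H761
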